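/-
P-S41 block (6) (helper62): the abstract group-theoretic core of the NON-EISENSTEIN argument.

`V` a two-dimensional `𝔽_p`-vector space (`p` odd) with an irreducible action `ρ` of a group `G`;
`χ : G → 𝔽_pˣ` a character, `c ∈ G` with `ρ(c)² = 1` and `χ(c) = -1`; `κ : G → Q` a homomorphism
to a commutative group.  If every `ρ(g)` satisfies a quadratic equation `X² - aX + χ(g)` and
`(ρ(h) - 1)² = 0` for all `h ∈ ker κ`, we get a contradiction.
-/
import Mathlib

set_option autoImplicit false

namespace Fermat.Agent.S41.NonEis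

open Polynomial Module

variable {p : ℕ} [Fact p.Prime] {G : Type*} [Group G] {V : Type*} [AddCommGroup V]
  [Module (ZMod p) V]

/-- Irreducibility of `ρ`: the only stable submodules are `⊥` and `⊤`. -/
def IrredRep (ρ : G →* Module.End (ZMod p) V) : Prop :=
  ∀ N : Submodule (ZMod p) V, (∀ g, ∀ v ∈ N, ρ g v ∈ N) → N = ⊥ ∨ N = ⊤

theorem one_add_pow_of_mul_self_eq_zero {R : Type*} [Ring R] (n : R) (hn : n * n = 0) (k : ℕ) :
    (1 + n) ^ k = 1 + k • n := by
  induction k with
  | zero => simp
  | succ k ih =>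
    rw [pow_succ, ih, add_mul, mul_add, mul_add, mul_one, one_mul, mul_one, smul_mul_assoc, hn,
      smul_zero, add_zero, succ_nsmul]
    abel

theorem pow_prime_eq_one_of_unipotent (x : Module.End (ZMod p) V)
    (hx : (x - 1) * (x - 1) = 0) : x ^ p = 1 := by
  have h := one_add_pow_of_mul_self_eq_zero (x - 1) hx p
  rw [add_sub_cancel] at h
  rw [h]
  have : p • (x - 1) = 0 := by
    rw [← Nat.cast_smul_eq_nsmul (ZMod p), ZMod.natCast_self, zero_smul]
  rw [this, add_zero]

/-- **Lemma A.** A normal subgroup acting through unipotent elements on an irreducible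
representation on a finite `p`-group `V` acts trivially. -/
theorem eq_one_of_unipotent [Finite V] (hpV : p ∣ Nat.card V)
    (ρ : G →* Module.End (ZMod p) V) (hirr : IrredRep ρ) (H : Subgroup G) [H.Normal]
    (hH : ∀ h ∈ H, (ρ h - 1) * (ρ h - 1) = 0) : ∀ h ∈ H, ρ h = 1 := by
  classical
  let ρu : G →* (Module.End (ZMod p) V)ˣ := ρ.toHomUnits
  have hρu : ∀ g, ((ρu g : (Module.End (ZMod p) V)ˣ) : Module.End (ZMod p) V) = ρ g := fun g => rfl
  let Q : Subgroup (Module.End (ZMod p) V)ˣ := H.map ρu
  have hQ : IsPGroup p Q := by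
    rintro ⟨q, hq⟩
    obtain ⟨h, hh, rfl⟩ := hq
    refine ⟨1, ?_⟩
    apply Subtype.ext
    apply Units.ext
    show ((ρu h ^ p ^ 1 : (Module.End (ZMod p) V)ˣ) : Module.End (ZMod p) V) = 1
    rw [pow_one, Units.val_pow_eq_pow_val, hρu]
    exact pow_prime_eq_one_of_unipotent _ (hH h hh)
  have h0 : (0 : V) ∈ MulAction.fixedPoints Q V := by
    intro q
    show ((q : (Module.End (ZMod p) V)ˣ) : Module.End (ZMod p) V) 0 = 0
    exact map_zero _
  obtain ⟨b, hb, hb0⟩ := hQ.exists_fixed_point_of_prime_dvd_card_of_fixed_point V hpV h0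
  -- the fixed submodule
  let F : Submodule (ZMod p) V :=
    { carrier := {v | ∀ h ∈ H, ρ h v = v}
      add_mem' := by
        intro v w hv hw h hh
        rw [map_add, hv h hh, hw h hh]
      zero_mem' := fun h _ => map_zero _
      smul_mem' := by
        intro a v hv h hh
        rw [map_smul, hv h hh] }
  have hbF : b ∈ F := by
    intro h hh
    have := hb ⟨ρu h, ⟨h, hh, rfl⟩⟩
    exact this
  have hstab : ∀ g, ∀ v ∈ F, ρ g v ∈ F := by
    intro g v hv h hh
    have h1 : g⁻¹ * h * g ∈ H := by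
      have := ‹H.Normal›.conj_mem h hh g⁻¹
      simpa using this
    have h2 : h * g = g * (g⁻¹ * h * g) := by group
    calc ρ h (ρ g v) = (ρ h * ρ g) v := rfl
      _ = ρ (h * g) v := by rw [map_mul]
      _ = ρ (g * (g⁻¹ * h * g)) v := by rw [h2]
      _ = (ρ g * ρ (g⁻¹ * h * g)) v := by rw [map_mul]
      _ = ρ g (ρ (g⁻¹ * h * g) v) := rfl
      _ = ρ g v := by rw [hv _ h1]
  rcases hirr F hstab with hF | hF
  · exfalso
    rw [hF] at hbF
    exact hb0 ((Submodule.mem_bot _).mp hbF).symm
  · intro h hh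
    apply LinearMap.ext
    intro v
    have : v ∈ F := by rw [hF]; trivial
    exact this h hh

/-- A non-scalar endomorphism of a two-dimensional space killed by `X² - aX + d` has
determinant `d`. -/
theorem det_eq_of_quadratic (hV : finrank (ZMod p) V = 2) (x : Module.End (ZMod p) V)
    (a d : ZMod p) (hx : x * x - a • x + d • (1 : Module.End (ZMod p) V) = 0)
    (hns : ∀ c : ZMod p, x ≠ c • (1 : Module.End (ZMod p) V)) : LinearMap.det x = d := by
  have hfin : Module.Finite (ZMod p) V := Module.finite_of_finrank_pos (by omega)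
  have hnt : Nontrivial V := Module.nontrivial_of_finrank_pos (R := ZMod p) (by omega)
  set q := LinearMap.charpoly x with hq
  have hmon : q.Monic := LinearMap.charpoly_monic x
  have hdeg : q.natDegree = 2 := by rw [hq, LinearMap.charpoly_natDegree, hV]
  have hqx : aeval x q = 0 := LinearMap.aeval_self_charpoly x
  have hform : q = X ^ 2 + C (q.coeff 1) * X + C (q.coeff 0) := by
    ext n
    simp only [coeff_add, coeff_X_pow, coeff_C_mul, coeff_X, coeff_C]
    rcases n with _ | _ | _ | n
    · simp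
    · simp
    · have : q.coeff 2 = 1 := by
        have := hmon.coeff_natDegree
        rwa [hdeg] at this
      simp [this]
    · have : q.coeff (n + 3) = 0 := coeff_eq_zero_of_natDegree_lt (by omega)
      simp [this]
  rw [hform] at hqx
  simp only [map_add, map_mul, map_pow, aeval_X, aeval_C, Algebra.algebraMap_eq_smul_one] at hqx
  -- subtract
  have hsub : (a + q.coeff 1) • x = (d - q.coeff 0) • (1 : Module.End (ZMod p) V) := by
    have e1 : x * x = a • x - d • (1 : Module.End (ZMod p) V) := by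
      rw [eq_sub_iff_add_eq, ← sub_eq_zero, ← hx]
      abel
    rw [pow_two, e1, smul_mul_assoc, one_mul] at hqx
    rw [add_smul, sub_smul, ← sub_eq_zero, ← hqx]
    abel
  have hab : a + q.coeff 1 = 0 := by
    by_contra hne
    apply hns ((a + q.coeff 1)⁻¹ * (d - q.coeff 0))
    rw [mul_smul, ← hsub, smul_smul, inv_mul_cancel₀ hne, one_smul]
  rw [hab, zero_smul] at hsub
  have hde : d - q.coeff 0 = 0 := by
    by_contra hne
    have : (1 : Module.End (ZMod p) V) = 0 := by
      have := congrArg (fun y => (d - q.coeff 0)⁻¹ • y) hsub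
      simpa [smul_smul, inv_mul_cancel₀ hne] using this.symm
    exact one_ne_zero this
  rw [LinearMap.det_eq_sign_charpoly_coeff, hV, ← hq]
  rw [sub_eq_zero] at hde
  rw [hde]
  ring

theorem one_ne_neg_one_zmod (hp2 : p ≠ 2) : (1 : ZMod p) ≠ -1 := by
  intro h
  have h2 : ((2 : ℕ) : ZMod p) = 0 := by
    have : (1 : ZMod p) + 1 = 0 := by
      nth_rewrite 2 [h]
      ring
    rw [← this]
    norm_num
  have hdvd : p ∣ 2 := (ZMod.natCast_eq_zero_iff 2 p).mp h2
  have hp : p.Prime := Fact.out
  exact hp2 ((Nat.prime_dvd_prime_iff_eq hp Nat.prime_two).mp hdvd)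

/-- **Main abstract theorem.** -/
theorem false_of_charEq (hp2 : p ≠ 2) [Finite V] (hV : finrank (ZMod p) V = 2)
    (ρ : G →* Module.End (ZMod p) V) (hirr : IrredRep ρ)
    (χ : G →* (ZMod p)ˣ) (c : G) (hc : ρ c * ρ c = 1) (hχc : χ c = -1)
    {Q : Type*} [CommGroup Q] (κ : G →* Q)
    (h1 : ∀ g, ∃ a : ZMod p, ρ g * ρ g - a • ρ g +
      ((χ g : (ZMod p)ˣ) : ZMod p) • (1 : Module.End (ZMod p) V) = 0)
    (h2 : ∀ h, κ h = 1 → (ρ h - 1) * (ρ h - 1) = 0) : False := by
  classical
  have hp : p.Prime := Fact.out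
  have hfin : Module.Finite (ZMod p) V := Module.finite_of_finrank_pos (by omega)
  have hnt : Nontrivial V := Module.nontrivial_of_finrank_pos (R := ZMod p) (by omega)
  have hcard : Nat.card V = p ^ 2 := by
    rw [Module.natCard_eq_pow_finrank (K := ZMod p), hV, Nat.card_zmod]
  have hpV : p ∣ Nat.card V := by
    rw [hcard]
    exact dvd_pow_self p two_ne_zero
  -- the kernel of `κ` acts trivially
  have htriv : ∀ h, κ h = 1 → ρ h = 1 := fun h hh =>
    eq_one_of_unipotent hpV ρ hirr κ.ker (fun h hh => h2 h (MonoidHom.mem_ker.mp hh)) h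
      (MonoidHom.mem_ker.mpr hh)
  -- the image is commutative
  have hcomm : ∀ g g', ρ g * ρ g' = ρ g' * ρ g := by
    intro g g'
    have hk : κ (g * g' * g⁻¹ * g'⁻¹) = 1 := by
      simp only [map_mul, map_inv]
      rw [mul_comm (κ g) (κ g'), mul_assoc, mul_assoc, mul_inv_cancel_left, mul_inv_cancel]
    have h3 := htriv _ hk
    have h4 : g * g' = (g * g' * g⁻¹ * g'⁻¹) * (g' * g) := by group
    rw [← map_mul, ← map_mul, h4, map_mul, h3, one_mul]
  -- units
  have hunit : ∀ g, ρ g * ρ g⁻¹ = 1 := fun g => by rw [← map_mul, mul_inv_cancel, map_one]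
  have hone : (1 : Module.End (ZMod p) V) ≠ 0 := one_ne_zero
  -- a non-scalar element
  have hex : ∃ g₀, ∀ t : ZMod p, ρ g₀ ≠ t • (1 : Module.End (ZMod p) V) := by
    by_contra hcon
    push Not at hcon
    obtain ⟨v, hv⟩ := exists_ne (0 : V)
    have hstab : ∀ g, ∀ w ∈ (ZMod p ∙ v : Submodule (ZMod p) V), ρ g w ∈ (ZMod p ∙ v) := by
      intro g w hw
      obtain ⟨t, ht⟩ := hcon g
      rw [ht]
      exact Submodule.smul_mem _ t hw
    rcases hirr _ hstab with hN | hN
    · exact hv ((Submodule.span_singleton_eq_bot).mp hN)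
    · have h5 : finrank (ZMod p) (ZMod p ∙ v : Submodule (ZMod p) V) = 1 :=
        finrank_span_singleton hv
      rw [hN, finrank_top, hV] at h5
      omega
  obtain ⟨g₀, hg₀⟩ := hex
  have hdet_ns : ∀ g, (∀ t : ZMod p, ρ g ≠ t • (1 : Module.End (ZMod p) V)) →
      LinearMap.det (ρ g) = ((χ g : (ZMod p)ˣ) : ZMod p) := by
    intro g hg
    obtain ⟨a, ha⟩ := h1 g
    exact det_eq_of_quadratic hV (ρ g) a _ ha hg
  have hdet : ∀ g, LinearMap.det (ρ g) = ((χ g : (ZMod p)ˣ) : ZMod p) := by
    intro z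
    by_cases hz : ∀ t : ZMod p, ρ z ≠ t • (1 : Module.End (ZMod p) V)
    · exact hdet_ns z hz
    · push Not at hz
      obtain ⟨t, ht⟩ := hz
      have ht0 : t ≠ 0 := by
        rintro rfl
        have := hunit z
        rw [ht, zero_smul, zero_mul] at this
        exact hone this.symm
      have hns : ∀ s : ZMod p, ρ (g₀ * z) ≠ s • (1 : Module.End (ZMod p) V) := by
        intro s hs
        apply hg₀ (t⁻¹ * s)
        rw [map_mul, ht, mul_smul_comm, mul_one] at hs
        rw [mul_smul, ← hs, smul_smul, inv_mul_cancel₀ ht0, one_smul]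
      have h6 := hdet_ns (g₀ * z) hns
      rw [map_mul, map_mul, map_mul, hdet_ns g₀ hg₀, Units.val_mul] at h6
      exact mul_left_cancel₀ (Units.ne_zero _) h6
  -- complex conjugation
  have hdetc : LinearMap.det (ρ c) = -1 := by
    rw [hdet c, hχc]
    simp
  have hstabK : ∀ g, ∀ v ∈ LinearMap.ker (ρ c - 1), ρ g v ∈ LinearMap.ker (ρ c - 1) := by
    intro g v hv
    rw [LinearMap.mem_ker] at hv ⊢
    have h7 : (ρ c - 1) (ρ g v) = ρ g ((ρ c - 1) v) := by
      simp only [LinearMap.sub_apply, Module.End.one_apply, map_sub]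
      congr 1
      calc ρ c (ρ g v) = (ρ c * ρ g) v := rfl
        _ = (ρ g * ρ c) v := by rw [hcomm]
        _ = ρ g (ρ c v) := rfl
    rw [h7, hv, map_zero]
  rcases hirr _ hstabK with hK | hK
  · -- `ρ c - 1` injective, so `ρ c = -1`
    have hinj : Function.Injective ⇑(ρ c - (1 : Module.End (ZMod p) V)) :=
      LinearMap.ker_eq_bot.mp hK
    have h8 : ρ c = (-1 : ZMod p) • (1 : Module.End (ZMod p) V) := by
      apply LinearMap.ext
      intro v
      apply hinj
      have h9 : (ρ c - 1) * (ρ c + 1) = 0 := by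
        rw [sub_mul, mul_add, mul_add, hc, mul_one, one_mul, one_mul]
        abel
      have h10 := LinearMap.congr_fun h9 v
      simp only [Module.End.mul_apply, LinearMap.zero_apply] at h10
      have h11 : (ρ c - 1) (ρ c v) = (ρ c - 1) (((-1 : ZMod p) • (1 : Module.End (ZMod p) V)) v) := by
        have : (ρ c + 1) v = ρ c v - ((-1 : ZMod p) • (1 : Module.End (ZMod p) V)) v := by
          simp
        rw [this, map_sub, sub_eq_zero] at h10
        exact h10
      exact h11
    rw [h8, LinearMap.det_smul, hV, map_one] at hdetc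
    apply one_ne_neg_one_zmod hp2
    rw [← hdetc]
    ring
  · -- `ρ c = 1`
    have h8 : ρ c = 1 := by
      apply LinearMap.ext
      intro v
      have : v ∈ LinearMap.ker (ρ c - 1) := by rw [hK]; trivial
      rw [LinearMap.mem_ker, LinearMap.sub_apply, sub_eq_zero] at this
      exact this
    rw [h8, map_one] at hdetc
    exact one_ne_neg_one_zmod hp2 hdetc

end Fermat.Agent.S41.NonEis
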