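/-
P-S41 block (B6) (helper62): NON-EISENSTEIN PRIME from the irreducibility of `E[p]`.

`exists_nonEisenstein_prime`: for an elliptic curve `E/ℚ` with integral model `W`, an odd prime
`p` with `E[p]` irreducible, a modulus `M > 0` and a finite set `B` of primes there is a prime
`l ∉ B`, `l ≡ 1 mod M`, `l ≠ p`, of good reduction with `a_l(E) ≢ l + 1 mod p`.

Proof: Chebotarev (`Cheb.exists_frobenius_lift`) + the characteristic equation of Frobenius lifts
on torsion points (`ReductionCharEq.charEq_frobeniusLift`) + the abstract group-theoretic core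
(`false_of_charEq`).  No Weil pairing is used.
-/
import Mathlib
import Fermat.Prelude.Def_FLTPrelim_ModularRep
import Fermat.Prelude.Def_GaloisRep_ComplexConjugation
import Fermat.Agent.S41.NonEis.Abstract
import Fermat.Agent.Lib.EC.ReductionCharEqMain
import Fermat.Agent.Lib.EC.TorsionCard
import Fermat.Agent.Lib.EC.FreyTorsionField
import Fermat.Agent.Lib.CFT.Cheb.Main
import Fermat.Agent.Gateway.S31.RootsOfUnity
import Fermat.Agent.S05.Transfer

set_option autoImplicit false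

namespace Fermat.Agent.S41.NonEis

open WeierstrassCurve WeierstrassCurve.Affine WeierstrassCurve.Affine.Point
open Fermat.Agent.Lib.EC.ReductionTorsion

local notation "Qbar" => AlgebraicClosure ℚ
local notation "Γℚ" => (AlgebraicClosure ℚ ≃ₐ[ℚ] AlgebraicClosure ℚ)

/-- Transfer of points from `E` to its integral model, Galois-equivariantly. -/
theorem exists_transfer_model (E : WeierstrassCurve ℚ) {W : WeierstrassCurve ℤ}
    (hW : W.IsIntegralModelOf E) :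
    ∃ ψ : (E⁄Qbar).Point →+ (curveQbar W).Point, Function.Injective ψ ∧
      ∀ (σ : Γℚ) (P : (E⁄Qbar).Point), ψ (σ • P) = σ • ψ P := by
  obtain ⟨C, hC⟩ := hW
  have h1 : C⁻¹ • (W.map (Int.castRingHom ℚ)) = E := by rw [← hC, inv_smul_smul]
  obtain ⟨ψ, hψ, hψσ⟩ := Fermat.Agent.S05.exists_transfer (K := Qbar) E.toAffine
    (W.map (Int.castRingHom ℚ)).toAffine C⁻¹ h1
  exact ⟨ψ, hψ, fun σ P => hψσ σ.toAlgHom P⟩

/-- The discriminant of an integral model of an elliptic curve is nonzero. -/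
theorem Δ_ne_zero_of_isIntegralModelOf (E : WeierstrassCurve ℚ) [E.IsElliptic]
    {W : WeierstrassCurve ℤ} (hW : W.IsIntegralModelOf E) : W.Δ ≠ 0 := by
  obtain ⟨C, hC⟩ := hW
  intro h0
  have h1 : (W.map (Int.castRingHom ℚ)).Δ = 0 := by
    rw [WeierstrassCurve.map_Δ, h0, _root_.map_zero]
  rw [← hC, WeierstrassCurve.variableChange_Δ] at h1
  have h2 : E.Δ ≠ 0 := E.isUnit_Δ.ne_zero
  have h3 : ((C.u⁻¹ : ℚˣ) : ℚ) ^ 12 ≠ 0 := pow_ne_zero _ (Units.ne_zero _)
  exact mul_ne_zero h3 h2 h1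

/-- The characteristic equation of a Frobenius lift on the torsion of `E` (not of the model). -/
theorem charEq_frobeniusLift_E (E : WeierstrassCurve ℚ) {W : WeierstrassCurve ℤ}
    (hW : W.IsIntegralModelOf E) {ℓ n : ℕ} [Fact ℓ.Prime] (hnℓ : ¬ ℓ ∣ n)
    (hgood : W.IsGoodPrimeFor ℓ) (A : ValuationSubring Qbar) (hA : A.LiesOverPrime ℓ)
    (σ : Γℚ) (hσ : A.IsFrobeniusAt σ ℓ) (P : (E⁄Qbar).Point) (hP : n • P = 0) :
    σ • σ • P - (W.apOfModel ℓ) • σ • P + (ℓ : ℤ) • P = 0 := by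
  obtain ⟨ψ, hψ, hψσ⟩ := exists_transfer_model E hW
  apply hψ
  rw [_root_.map_zero, map_add, map_sub, map_zsmul, map_zsmul, hψσ, hψσ]
  apply Fermat.Agent.Lib.EC.ReductionCharEq.charEq_frobeniusLift W hnℓ hgood A hA σ hσ (ψ P)
  rw [← map_nsmul, hP, _root_.map_zero]

/-- The `n`-torsion of `E(ℚ̄)` is finite. -/
theorem finite_torsion (E : WeierstrassCurve ℚ) [E.IsElliptic] {n : ℕ} (hn : 0 < n) :
    {Q : (E⁄Qbar).Point | n • Q = 0}.Finite := by
  have h := Fermat.Agent.Lib.EC.TorsionCard.card_torsion E Qbar (n := n)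
    (Nat.cast_ne_zero.mpr hn.ne')
  have hfin : Finite {P₀ : (E⁄Qbar).Point // n • P₀ = 0} :=
    Nat.finite_of_card_ne_zero (by rw [h]; positivity)
  exact Set.finite_coe_iff.mp hfin

/-- A finite Galois extension of `ℚ` inside `ℚ̄` containing `ζ` over which the `n`-torsion of
`E` is defined. -/
theorem exists_galois_field (E : WeierstrassCurve ℚ) [E.IsElliptic] {n : ℕ} (hn : 0 < n)
    (ζ : Qbar) :
    ∃ K : IntermediateField ℚ Qbar, FiniteDimensional ℚ K ∧ IsGalois ℚ K ∧ ζ ∈ K ∧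
      ∀ σ τ : Γℚ, (∀ x ∈ K, σ x = τ x) → ∀ P : (E⁄Qbar).Point, n • P = 0 → σ • P = τ • P := by
  obtain ⟨L, hL, hρ⟩ :=
    Fermat.Agent.Lib.EC.FreyTorsionField.galoisFactorsThroughFiniteLevel_of_finite E n
      (finite_torsion E hn)
  have : Algebra.IsAlgebraic ℚ Qbar := AlgebraicClosure.isAlgebraic ℚ
  have : IsAlgClosure ℚ Qbar := ⟨inferInstance, inferInstance⟩
  have : Normal ℚ Qbar := IsAlgClosure.normal ℚ Qbar
  have hζfin : FiniteDimensional ℚ (IntermediateField.adjoin ℚ {ζ}) :=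
    IntermediateField.adjoin.finiteDimensional (Algebra.IsIntegral.isIntegral ζ)
  have := hL
  let K : IntermediateField ℚ Qbar :=
    IntermediateField.normalClosure ℚ ↥(L ⊔ IntermediateField.adjoin ℚ {ζ}) Qbar
  have hLK : L ⊔ IntermediateField.adjoin ℚ {ζ} ≤ K := IntermediateField.le_normalClosure _
  have hKfin : FiniteDimensional ℚ K :=
    normalClosure.is_finiteDimensional ℚ ↥(L ⊔ IntermediateField.adjoin ℚ {ζ}) Qbar
  have hKnormal : Normal ℚ K :=
    normalClosure.normal ℚ ↥(L ⊔ IntermediateField.adjoin ℚ {ζ}) Qbar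
  have hKgal : IsGalois ℚ K := ⟨⟩
  refine ⟨K, hKfin, hKgal, hLK (le_sup_right (a := L)
    (IntermediateField.mem_adjoin_simple_self ℚ ζ)), ?_⟩
  intro σ τ hστ P hP
  have h1 : ∀ x ∈ L, (τ⁻¹ * σ) x = x := by
    intro x hx
    rw [AlgEquiv.mul_apply, hστ x (hLK (le_sup_left (b := IntermediateField.adjoin ℚ {ζ}) hx))]
    exact τ.symm_apply_apply x
  have h2 := hρ (τ⁻¹ * σ) h1
  have hPT : P ∈ Submodule.torsionBy ℤ (E⁄Qbar).Point n := by
    rw [Submodule.mem_torsionBy_iff, natCast_zsmul]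
    exact hP
  have h3 := LinearMap.congr_fun h2 ⟨P, hPT⟩
  have h4 : (τ⁻¹ * σ) • P = P := congrArg Subtype.val h3
  calc σ • P = τ • (τ⁻¹ * σ) • P := by rw [← mul_smul, mul_inv_cancel_left]
    _ = τ • P := by rw [h4]

/-- **Chebotarev + characteristic equation.**  Every `g ∈ Gal(ℚ̄/ℚ)` acts on the `n`-th roots
of unity and on the `n`-torsion of `E` like a Frobenius lift at a good prime `ℓ ∤ n` outside any
given finite set. -/
theorem exists_frobenius_data (E : WeierstrassCurve ℚ) [E.IsElliptic] {W : WeierstrassCurve ℤ}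
    (hW : W.IsIntegralModelOf E) {n : ℕ} (hn : 0 < n) (ζ : Qbar) (hζ : ζ ^ n = 1)
    (B : Finset ℕ) (g : Γℚ) :
    ∃ ℓ, ℓ.Prime ∧ ℓ ∉ B ∧ ¬ ℓ ∣ n ∧ W.IsGoodPrimeFor ℓ ∧ g ζ = ζ ^ ℓ ∧
      ∀ P : (E⁄Qbar).Point, n • P = 0 →
        g • g • P - (W.apOfModel ℓ) • g • P + (ℓ : ℤ) • P = 0 := by
  obtain ⟨K, hKfin, hKgal, hζK, hK⟩ := exists_galois_field E hn ζ
  have hΔ := Δ_ne_zero_of_isIntegralModelOf E hW
  obtain ⟨ℓ, hℓ, hℓS, A, hA, φ, hφ, hφg⟩ :=
    Fermat.Agent.Lib.CFT.Cheb.exists_frobenius_lift K g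
      (B ∪ n.primeFactors ∪ W.Δ.natAbs.primeFactors)
  have hℓB : ℓ ∉ B := fun h => hℓS (Finset.mem_union_left _ (Finset.mem_union_left _ h))
  have hℓn : ¬ ℓ ∣ n := fun h => hℓS (Finset.mem_union_left _ (Finset.mem_union_right _
    (Nat.mem_primeFactors.mpr ⟨hℓ, h, hn.ne'⟩)))
  have hgood : W.IsGoodPrimeFor ℓ := by
    intro h
    exact hℓS (Finset.mem_union_right _ (Nat.mem_primeFactors.mpr
      ⟨hℓ, Int.natCast_dvd.mp h, Int.natAbs_ne_zero.mpr hΔ⟩))
  refine ⟨ℓ, hℓ, hℓB, hℓn, hgood, ?_, ?_⟩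
  · rw [← hφg ζ hζK]
    exact Fermat.Agent.Gateway.S31Red.frob_apply_rootOfUnity hℓ hA hφ hℓn hζ
  · intro P hP
    have : Fact ℓ.Prime := ⟨hℓ⟩
    have h1 := charEq_frobeniusLift_E E hW hℓn hgood A hA φ hφ P hP
    have e : ∀ Q : (E⁄Qbar).Point, n • Q = 0 → φ • Q = g • Q := fun Q hQ => hK φ g hφg Q hQ
    have hgP : n • (g • P) = 0 := by
      rw [← natCast_zsmul, ← algEquiv_smul_zsmul, natCast_zsmul, hP, smul_zero]
    rw [e P hP, e (g • P) hgP] at h1
    exact h1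

/-- Exponents of a primitive root, modulo its order. -/
theorem natCast_eq_of_pow_eq {k : ℕ} (hk : 0 < k) {μ : Qbar} (hμ : IsPrimitiveRoot μ k) {a b : ℕ}
    (h : μ ^ a = μ ^ b) : (a : ZMod k) = (b : ZMod k) := by
  rw [ZMod.natCast_eq_natCast_iff]
  have h1 : μ ^ (a % k) = μ ^ (b % k) := by
    have e := hμ.eq_orderOf
    rw [e, pow_mod_orderOf, pow_mod_orderOf]
    exact h
  exact hμ.pow_inj (Nat.mod_lt _ hk) (Nat.mod_lt _ hk) h1

/-- Complex conjugation inverts roots of unity. -/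
theorem complexConjugation_rootOfUnity {k : ℕ} (hk : k ≠ 0) {μ : Qbar} (hμ : μ ^ k = 1) :
    complexConjugation μ = μ⁻¹ := by
  apply complexEmbedding.toRingHom.injective
  show complexEmbedding (complexConjugation μ) = complexEmbedding μ⁻¹
  rw [complexEmbedding_complexConjugation, map_inv₀]
  have h1 : (complexEmbedding μ) ^ k = 1 := by rw [← map_pow, hμ, map_one]
  have h2 : ‖complexEmbedding μ‖ = 1 := Complex.norm_eq_one_of_pow_eq_one h1 hk
  have h3 : complexEmbedding μ * (starRingEnd ℂ) (complexEmbedding μ) = 1 := by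
    rw [Complex.mul_conj, Complex.normSq_eq_norm_sq, h2]
    norm_num
  exact eq_inv_of_mul_eq_one_right h3

/-- **(I5) NON-EISENSTEIN PRIME.** -/
theorem exists_nonEisenstein_prime (E : WeierstrassCurve ℚ) [E.IsElliptic]
    {W : WeierstrassCurve ℤ} (hW : W.IsIntegralModelOf E) {p : ℕ} (hp : p.Prime) (hp2 : p ≠ 2)
    (hirr : GaloisRepIsIrreducible (K := AlgebraicClosure ℚ) ℚ E p) (M : ℕ) (hM : 0 < M)
    (B : Finset ℕ) :
    ∃ l, l.Prime ∧ l ∉ B ∧ l ≡ 1 [MOD M] ∧ l ≠ p ∧ W.IsGoodPrimeFor l ∧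
      ¬ (p : ℤ) ∣ W.apOfModel l - (l + 1) := by
  by_contra hcon
  push Not at hcon
  have : Fact p.Prime := ⟨hp⟩
  set n := M * p with hn
  have hn0 : 0 < n := Nat.mul_pos hM hp.pos
  have hn1 : n ≠ 1 := by
    intro h
    have := Nat.eq_one_of_mul_eq_one_left h
    exact hp.one_lt.ne' this
  have : NeZero n := ⟨hn0.ne'⟩
  have : NeZero (n : ℚ) := ⟨by exact_mod_cast hn0.ne'⟩
  obtain ⟨ζ, hζ⟩ := HasEnoughRootsOfUnity.exists_primitiveRoot Qbar n
  have hζp : IsPrimitiveRoot (ζ ^ M) p := hζ.pow hn0 hn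
  -- the representation
  let ρ : Γℚ →* Module.End (ZMod p) (Submodule.torsionBy ℤ (E⁄Qbar).Point p) :=
    galoisRepModuleEnd ℚ E.toAffine p
  let χ : Γℚ →* (ZMod p)ˣ := hζp.autToPow ℚ
  let κ : Γℚ →* (ZMod n)ˣ := hζ.autToPow ℚ
  have hcardT : Nat.card (Submodule.torsionBy ℤ (E⁄Qbar).Point p) = p ^ 2 :=
    Fermat.Agent.Lib.EC.TorsionCard.card_torsionBy E Qbar (n := p)
      (Nat.cast_ne_zero.mpr hp.ne_zero)
  have hfinT : Finite (Submodule.torsionBy ℤ (E⁄Qbar).Point p) :=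
    Nat.finite_of_card_ne_zero (by rw [hcardT]; exact pow_ne_zero _ hp.ne_zero)
  have hV : Module.finrank (ZMod p) (Submodule.torsionBy ℤ (E⁄Qbar).Point p) = 2 := by
    have h1 := Module.natCard_eq_pow_finrank (K := ZMod p)
      (V := Submodule.torsionBy ℤ (E⁄Qbar).Point p)
    rw [hcardT, Nat.card_zmod] at h1
    exact (Nat.pow_right_injective hp.two_le h1).symm
  have hirr' : IrredRep ρ := fun N hN => hirr.2 N (fun σ x hx => hN σ x hx)
  have hc : ρ complexConjugation * ρ complexConjugation = 1 := by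
    rw [← map_mul, complexConjugation_mul_self, map_one]
  -- the key equation in the endomorphism ring
  have hend : ∀ g : Γℚ, ∃ ℓ, ℓ.Prime ∧ ℓ ∉ B ∧ ¬ ℓ ∣ n ∧ W.IsGoodPrimeFor ℓ ∧ g ζ = ζ ^ ℓ ∧
      ρ g * ρ g - ((W.apOfModel ℓ : ℤ) : ZMod p) • ρ g +
        ((ℓ : ℕ) : ZMod p) • (1 : Module.End (ZMod p) (Submodule.torsionBy ℤ (E⁄Qbar).Point p))
          = 0 := by
    intro g
    obtain ⟨ℓ, hℓ, hℓB, hℓn, hgood, hgζ, hchar⟩ :=
      exists_frobenius_data E hW hn0 ζ hζ.pow_eq_one B g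
    refine ⟨ℓ, hℓ, hℓB, hℓn, hgood, hgζ, ?_⟩
    apply LinearMap.ext
    intro P
    apply Subtype.ext
    have hP : n • (P : (E⁄Qbar).Point) = 0 := by
      have h1 := (Submodule.mem_torsionBy_iff _ _).1 P.2
      rw [natCast_zsmul] at h1
      rw [hn, mul_nsmul', h1, smul_zero]
    have h2 := hchar P hP
    simp only [LinearMap.add_apply, LinearMap.sub_apply, LinearMap.smul_apply,
      Module.End.mul_apply, Module.End.one_apply, LinearMap.zero_apply]
    rw [Int.cast_smul_eq_zsmul, Nat.cast_smul_eq_nsmul]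
    rw [← natCast_zsmul] at ⊢
    exact h2
  -- `h1`
  have h1 : ∀ g : Γℚ, ∃ a : ZMod p, ρ g * ρ g - a • ρ g + ((χ g : (ZMod p)ˣ) : ZMod p) •
      (1 : Module.End (ZMod p) (Submodule.torsionBy ℤ (E⁄Qbar).Point p)) = 0 := by
    intro g
    obtain ⟨ℓ, hℓ, hℓB, hℓn, hgood, hgζ, hEq⟩ := hend g
    refine ⟨((W.apOfModel ℓ : ℤ) : ZMod p), ?_⟩
    have hχ : ((χ g : (ZMod p)ˣ) : ZMod p) = ((ℓ : ℕ) : ZMod p) := by
      have h3 : (ζ ^ M) ^ ((χ g : (ZMod p)ˣ) : ZMod p).val = (ζ ^ M) ^ ℓ := by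
        rw [hζp.autToPow_spec ℚ g, map_pow, hgζ, ← pow_mul, ← pow_mul, mul_comm]
      have h4 := natCast_eq_of_pow_eq hp.pos hζp h3
      rwa [ZMod.natCast_zmod_val] at h4
    rw [hχ]
    exact hEq
  -- `h2`
  have h2 : ∀ h : Γℚ, κ h = 1 → (ρ h - 1) * (ρ h - 1) = 0 := by
    intro h hκ
    obtain ⟨ℓ, hℓ, hℓB, hℓn, hgood, hgζ, hEq⟩ := hend h
    have h3 : ζ ^ ((κ h : (ZMod n)ˣ) : ZMod n).val = h ζ := hζ.autToPow_spec ℚ h
    rw [hκ, Units.val_one, ZMod.val_one_eq_one_mod, Nat.one_mod_eq_one.mpr hn1, hgζ] at h3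
    have h4 : ((1 : ℕ) : ZMod n) = ((ℓ : ℕ) : ZMod n) := natCast_eq_of_pow_eq hn0 hζ h3
    have h5 : ℓ ≡ 1 [MOD n] := ((ZMod.natCast_eq_natCast_iff 1 ℓ n).mp h4).symm
    have h5M : ℓ ≡ 1 [MOD M] := Nat.ModEq.of_mul_right p h5
    have h5p : ℓ ≡ 1 [MOD p] := Nat.ModEq.of_mul_left M h5
    have hℓp : ℓ ≠ p := by
      rintro rfl
      exact hℓn (Dvd.intro_left M rfl)
    have h6 := hcon ℓ hℓ hℓB h5M hℓp hgood
    have h7 : ((W.apOfModel ℓ : ℤ) : ZMod p) = ((ℓ : ℕ) : ZMod p) + 1 := by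
      have := (ZMod.intCast_zmod_eq_zero_iff_dvd _ p).mpr h6
      push_cast at this
      rw [sub_eq_zero] at this
      exact this
    have h8 : ((ℓ : ℕ) : ZMod p) = 1 := by
      have := (ZMod.natCast_eq_natCast_iff ℓ 1 p).mpr h5p
      simpa using this
    rw [h7, h8, add_smul, one_smul, one_smul] at hEq
    rw [← hEq, sub_mul, mul_sub, mul_one, one_mul]
    abel
  -- complex conjugation
  have hχc : χ complexConjugation = -1 := by
    have h3 : (ζ ^ M) ^ ((χ complexConjugation : (ZMod p)ˣ) : ZMod p).val = (ζ ^ M) ^ (p - 1) := by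
      rw [hζp.autToPow_spec ℚ complexConjugation,
        complexConjugation_rootOfUnity hp.ne_zero hζp.pow_eq_one]
      apply inv_eq_of_mul_eq_one_right
      rw [← pow_succ', Nat.sub_add_cancel hp.one_le, hζp.pow_eq_one]
    have h4 := natCast_eq_of_pow_eq hp.pos hζp h3
    rw [ZMod.natCast_zmod_val, Nat.cast_sub hp.one_le, ZMod.natCast_self, Nat.cast_one,
      zero_sub] at h4
    apply Units.ext
    rw [h4, Units.val_neg, Units.val_one]
  exact false_of_charEq hp2 hV ρ hirr' χ complexConjugation hc hχc κ h1 h2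

end Fermat.Agent.S41.NonEis
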