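/-
P-S41 block (B6±) (helper62): abstract core of "a Frobenius with no eigenvalue `±1`".

`V` a two-dimensional `𝔽_p`-vector space (`p` odd) with an irreducible action `ρ` of a group `G`;
`χ : G → 𝔽_pˣ` a character, `c ∈ G` with `ρ(c)² = 1` and `χ(c) = -1`.  If every `ρ(g)` is killed
by a polynomial `X² - aX + χ(g)` with `a² = (1 + χ(g))²` (i.e. `a = ±(1 + χ(g))`: the polynomial
has the root `1` or the root `-1`), we get a contradiction.

Proof: in an eigenbasis `v₊, v₋` of `ρ(c)` write `ρ(g) = [[α, β], [γ, δ]]`.  The two relations for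
`g` and `c g` force `β γ = 0` (if `γ ≠ 0` then `α + δ = a`, `α - δ = a'`, so
`4 α δ = a² - a'² = 4 χ(g)` and `β γ = α δ - χ(g) = 0`).  So every `ρ(g)` is upper or lower
triangular, and a group is not the union of two proper subgroups.
-/
import Mathlib
import Fermat.Agent.S41.NonEis.Abstract

set_option autoImplicit false

namespace Fermat.Agent.S41.NonEis

open Module

variable {p : ℕ} [Fact p.Prime] {G : Type*} [Group G] {V : Type*} [AddCommGroup V]
  [Module (ZMod p) V]

theorem two_ne_zero_zmod (hp2 : p ≠ 2) : (2 : ZMod p) ≠ 0 := by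
  intro h
  apply one_ne_neg_one_zmod (p := p) hp2
  have : (1 : ZMod p) + 1 = 0 := by rw [← h]; norm_num
  exact eq_neg_of_add_eq_zero_left this

/-- An irreducible two-dimensional representation has a non-scalar element. -/
theorem exists_nonscalar (hV : finrank (ZMod p) V = 2) (ρ : G →* Module.End (ZMod p) V)
    (hirr : IrredRep ρ) : ∃ g₀, ∀ t : ZMod p, ρ g₀ ≠ t • (1 : Module.End (ZMod p) V) := by
  have hnt : Nontrivial V := Module.nontrivial_of_finrank_pos (R := ZMod p) (by omega)
  by_contra hcon
  push Not at hcon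
  obtain ⟨v, hv⟩ := exists_ne (0 : V)
  have hstab : ∀ g, ∀ w ∈ (ZMod p ∙ v : Submodule (ZMod p) V), ρ g w ∈ (ZMod p ∙ v) := by
    intro g w hw
    obtain ⟨t, ht⟩ := hcon g
    rw [ht]
    exact Submodule.smul_mem _ t hw
  rcases hirr _ hstab with hN | hN
  · exact hv ((Submodule.span_singleton_eq_bot).mp hN)
  · have h5 : finrank (ZMod p) (ZMod p ∙ v : Submodule (ZMod p) V) = 1 :=
      finrank_span_singleton hv
    rw [hN, finrank_top, hV] at h5
    omega

/-- A line spanned by a nonzero vector is not stable under an irreducible two-dimensional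
representation. -/
theorem exists_not_eigen (hV : finrank (ZMod p) V = 2) (ρ : G →* Module.End (ZMod p) V)
    (hirr : IrredRep ρ) {v : V} (hv : v ≠ 0) : ∃ g, ¬ ∃ t : ZMod p, ρ g v = t • v := by
  by_contra hcon
  push Not at hcon
  have hstab : ∀ g, ∀ w ∈ (ZMod p ∙ v : Submodule (ZMod p) V), ρ g w ∈ (ZMod p ∙ v) := by
    intro g w hw
    obtain ⟨t, ht⟩ := hcon g
    obtain ⟨r, rfl⟩ := Submodule.mem_span_singleton.mp hw
    rw [map_smul, ht]
    exact Submodule.smul_mem _ r (Submodule.smul_mem _ t (Submodule.mem_span_singleton_self v))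
  rcases hirr _ hstab with hN | hN
  · exact hv ((Submodule.span_singleton_eq_bot).mp hN)
  · have h5 : finrank (ZMod p) (ZMod p ∙ v : Submodule (ZMod p) V) = 1 :=
      finrank_span_singleton hv
    rw [hN, finrank_top, hV] at h5
    omega

/-- **Main abstract theorem (±).** -/
theorem false_of_charEq_pm (hp2 : p ≠ 2) (hV : finrank (ZMod p) V = 2)
    (ρ : G →* Module.End (ZMod p) V) (hirr : IrredRep ρ)
    (χ : G →* (ZMod p)ˣ) (c : G) (hc : ρ c * ρ c = 1) (hχc : χ c = -1)
    (h1 : ∀ g, ∃ a : ZMod p, a ^ 2 = (1 + ((χ g : (ZMod p)ˣ) : ZMod p)) ^ 2 ∧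
      ρ g * ρ g - a • ρ g +
        ((χ g : (ZMod p)ˣ) : ZMod p) • (1 : Module.End (ZMod p) V) = 0) : False := by
  classical
  have hp : p.Prime := Fact.out
  have hfin : Module.Finite (ZMod p) V := Module.finite_of_finrank_pos (by omega)
  have hnt : Nontrivial V := Module.nontrivial_of_finrank_pos (R := ZMod p) (by omega)
  have h2 : (2 : ZMod p) ≠ 0 := two_ne_zero_zmod hp2
  have hone : (1 : Module.End (ZMod p) V) ≠ 0 := one_ne_zero
  have hχcg : ∀ g, ((χ (c * g) : (ZMod p)ˣ) : ZMod p) = -((χ g : (ZMod p)ˣ) : ZMod p) := by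
    intro g
    rw [map_mul, hχc]
    simp
  have hinj : ∀ g, Function.Injective (ρ g) := by
    intro g v w hvw
    have h3 : ρ g⁻¹ * ρ g = 1 := by rw [← map_mul, inv_mul_cancel, map_one]
    have h4 : ∀ u : V, ρ g⁻¹ (ρ g u) = u := fun u => by
      have := LinearMap.congr_fun h3 u
      simpa only [Module.End.mul_apply, Module.End.one_apply] using this
    rw [← h4 v, ← h4 w, hvw]
  obtain ⟨g₀, hg₀⟩ := exists_nonscalar hV ρ hirr
  set s := ρ c with hs
  have hss : ∀ v : V, s (s v) = v := fun v => by
    have := LinearMap.congr_fun hc v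
    simpa using this
  -- `s` is not a scalar
  have hsns : ∀ e : ZMod p, s ≠ e • (1 : Module.End (ZMod p) V) := by
    intro e he
    have he2 : e * e = 1 := by
      have h0 : (e • (1 : Module.End (ZMod p) V)) * (e • (1 : Module.End (ZMod p) V)) = 1 := by
        rw [← he]
        exact hc
      rw [smul_mul_smul_comm, mul_one] at h0
      have h3 : (e * e) • (1 : Module.End (ZMod p) V) = (1 : ZMod p) • 1 := by
        rw [h0, one_smul]
      exact smul_left_injective (ZMod p) hone h3
    obtain ⟨a, -, ha⟩ := h1 g₀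
    obtain ⟨a', -, ha'⟩ := h1 (c * g₀)
    rw [map_mul, ← hs, he, hχcg, smul_mul_assoc, one_mul, smul_mul_smul_comm, he2, one_smul,
      smul_smul] at ha'
    set D := ((χ g₀ : (ZMod p)ˣ) : ZMod p) with hD
    have hD0 : D ≠ 0 := Units.ne_zero _
    have h3 : (a' * e - a) • ρ g₀ = (-(2 * D)) • (1 : Module.End (ZMod p) V) := by
      linear_combination (norm := module) ha - ha'
    have h4 : a' * e - a ≠ 0 := by
      intro h0
      rw [h0, zero_smul] at h3
      have h5 : (-(2 * D)) • (1 : Module.End (ZMod p) V) = (0 : ZMod p) • 1 := by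
        rw [← h3, zero_smul]
      have h6 := smul_left_injective (ZMod p) hone h5
      have h7 : (2 : ZMod p) * D = 0 := by
        have h8 : -(2 * D) = 0 := h6
        exact neg_eq_zero.mp h8
      rcases mul_eq_zero.mp h7 with h | h
      · exact h2 h
      · exact hD0 h
    apply hg₀ ((a' * e - a)⁻¹ * (-(2 * D)))
    rw [mul_smul, ← h3, smul_smul, inv_mul_cancel₀ h4, one_smul]
  -- eigenvectors of `s`
  obtain ⟨vp, hvp0, hvp⟩ : ∃ v : V, v ≠ 0 ∧ s v = v := by
    by_contra hcon
    push Not at hcon
    apply hsns (-1)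
    apply LinearMap.ext
    intro v
    have h3 : s (s v + v) = s v + v := by rw [map_add, hss, add_comm]
    have h4 : s v + v = 0 := by
      by_contra h0
      exact hcon _ h0 h3
    rw [LinearMap.smul_apply, Module.End.one_apply, neg_one_smul]
    exact eq_neg_of_add_eq_zero_left h4
  obtain ⟨vm, hvm0, hvm⟩ : ∃ v : V, v ≠ 0 ∧ s v = -v := by
    by_contra hcon
    push Not at hcon
    apply hsns 1
    apply LinearMap.ext
    intro v
    have h3 : s (s v - v) = -(s v - v) := by rw [map_sub, hss, neg_sub]
    have h4 : s v - v = 0 := by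
      by_contra h0
      exact hcon _ h0 h3
    rw [LinearMap.smul_apply, Module.End.one_apply, one_smul]
    exact sub_eq_zero.mp h4
  -- the basis
  have hli : LinearIndependent (ZMod p) ![vp, vm] := by
    rw [LinearIndependent.pair_iff' hvp0]
    intro a ha
    have h3 : s (a • vp) = s vm := by rw [ha]
    rw [map_smul, hvp, hvm, ha] at h3
    have h4 : (2 : ZMod p) • vm = 0 := by
      have : (2 : ZMod p) • vm = vm + vm := two_smul _ _
      rw [this]
      nth_rewrite 1 [h3]
      exact neg_add_cancel vm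
    rcases smul_eq_zero.mp h4 with h | h
    · exact h2 h
    · exact hvm0 h
  have hcoef : ∀ A B : ZMod p, A • vp + B • vm = 0 → A = 0 ∧ B = 0 :=
    LinearIndependent.pair_iff.mp hli
  have hspan : ∀ w : V, ∃ A B : ZMod p, A • vp + B • vm = w := by
    intro w
    have h3 : Submodule.span (ZMod p) (Set.range ![vp, vm]) = ⊤ :=
      hli.span_eq_top_of_card_eq_finrank' (by rw [hV]; rfl)
    have h4 : w ∈ Submodule.span (ZMod p) (Set.range ![vp, vm]) := by rw [h3]; trivial
    have h5 : Set.range ![vp, vm] = {vp, vm} := by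
      ext z
      simp only [Set.mem_range, Fin.exists_fin_two, Matrix.cons_val_zero, Matrix.cons_val_one,
        Set.mem_insert_iff, Set.mem_singleton_iff]
      constructor
      · rintro (h | h)
        · exact Or.inl h.symm
        · exact Or.inr h.symm
      · rintro (h | h)
        · exact Or.inl h.symm
        · exact Or.inr h.symm
    rw [h5] at h4
    exact Submodule.mem_span_pair.mp h4
  -- every `ρ g` is upper or lower triangular
  have hdich : ∀ g, (∃ t : ZMod p, ρ g vp = t • vp) ∨ (∃ t : ZMod p, ρ g vm = t • vm) := by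
    intro g
    obtain ⟨α, γ, hα⟩ := hspan (ρ g vp)
    obtain ⟨β, δ, hβ⟩ := hspan (ρ g vm)
    by_cases hγ : γ = 0
    · left
      exact ⟨α, by rw [← hα, hγ, zero_smul, add_zero]⟩
    right
    refine ⟨δ, ?_⟩
    obtain ⟨a, ha2, ha⟩ := h1 g
    obtain ⟨a', ha'2, ha'⟩ := h1 (c * g)
    rw [hχcg] at ha'2 ha'
    set D := ((χ g : (ZMod p)ˣ) : ZMod p) with hD
    -- the relation for `g` at `vp`
    have e1 := LinearMap.congr_fun ha vp
    simp only [LinearMap.add_apply, LinearMap.sub_apply, LinearMap.smul_apply,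
      Module.End.mul_apply, Module.End.one_apply, LinearMap.zero_apply] at e1
    rw [← hα, map_add, map_smul, map_smul, ← hα, ← hβ] at e1
    have e2 : (α * α + γ * β - a * α + D) • vp + (α * γ + γ * δ - a * γ) • vm = 0 := by
      linear_combination (norm := module) e1
    obtain ⟨E1, E2⟩ := hcoef _ _ e2
    -- the relation for `c g` at `vp`
    have hcgp : ρ (c * g) vp = α • vp - γ • vm := by
      rw [map_mul, ← hs, Module.End.mul_apply, ← hα, map_add, map_smul, map_smul, hvp, hvm,
        smul_neg, sub_eq_add_neg]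
    have hcgm : ρ (c * g) vm = β • vp - δ • vm := by
      rw [map_mul, ← hs, Module.End.mul_apply, ← hβ, map_add, map_smul, map_smul, hvp, hvm,
        smul_neg, sub_eq_add_neg]
    have e3 := LinearMap.congr_fun ha' vp
    simp only [LinearMap.add_apply, LinearMap.sub_apply, LinearMap.smul_apply,
      Module.End.mul_apply, Module.End.one_apply, LinearMap.zero_apply] at e3
    rw [hcgp, map_sub, map_smul, map_smul, hcgp, hcgm] at e3
    have e4 : (α * α - γ * β - a' * α - D) • vp + (-(α * γ) + γ * δ + a' * γ) • vm = 0 := by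
      linear_combination (norm := module) e3
    obtain ⟨E3, E4⟩ := hcoef _ _ e4
    -- conclusion
    have hsum : α + δ = a := by
      have : γ * (α + δ - a) = 0 := by linear_combination E2
      rcases mul_eq_zero.mp this with h | h
      · exact absurd h hγ
      · exact sub_eq_zero.mp h
    have hdiff : α - δ = a' := by
      have : γ * (δ - α + a') = 0 := by linear_combination E4
      rcases mul_eq_zero.mp this with h | h
      · exact absurd h hγ
      · linear_combination -h
    have h4 : (4 : ZMod p) ≠ 0 := by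
      have : (4 : ZMod p) = 2 * 2 := by norm_num
      rw [this]
      exact mul_ne_zero h2 h2
    have hαδ : α * δ = D := by
      have : (4 : ZMod p) * (α * δ - D) = 0 := by
        linear_combination (α + δ + a) * hsum - (α - δ + a') * hdiff + ha2 - ha'2
      rcases mul_eq_zero.mp this with h | h
      · exact absurd h h4
      · exact sub_eq_zero.mp h
    have hβ0 : β = 0 := by
      have : γ * β = 0 := by
        linear_combination E1 - α * hsum + hαδ
      rcases mul_eq_zero.mp this with h | h
      · exact absurd h hγ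
      · exact h
    rw [← hβ, hβ0, zero_smul, zero_add]
  -- a group is not the union of two proper subgroups
  obtain ⟨g1, hg1⟩ := exists_not_eigen hV ρ hirr hvp0
  obtain ⟨g2, hg2⟩ := exists_not_eigen hV ρ hirr hvm0
  obtain ⟨δ1, hδ1⟩ := (hdich g1).resolve_left hg1
  obtain ⟨α2, hα2⟩ := (hdich g2).resolve_right hg2
  have hα20 : α2 ≠ 0 := by
    rintro rfl
    rw [zero_smul] at hα2
    exact hvp0 (hinj g2 (by rw [hα2, map_zero]))
  have hδ10 : δ1 ≠ 0 := by
    rintro rfl
    rw [zero_smul] at hδ1
    exact hvm0 (hinj g1 (by rw [hδ1, map_zero]))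
  rcases hdich (g1 * g2) with ⟨t, ht⟩ | ⟨t, ht⟩
  · apply hg1
    refine ⟨α2⁻¹ * t, ?_⟩
    rw [map_mul, Module.End.mul_apply, hα2, map_smul] at ht
    rw [mul_smul, ← ht, smul_smul, inv_mul_cancel₀ hα20, one_smul]
  · apply hg2
    refine ⟨δ1⁻¹ * t, ?_⟩
    rw [map_mul, Module.End.mul_apply] at ht
    apply hinj g1
    rw [ht, map_smul, hδ1, smul_smul, mul_comm, mul_inv_cancel_left₀ hδ10]

end Fermat.Agent.S41.NonEis
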