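/-
P-S41 block (B6±) (helper62): A FROBENIUS WITHOUT EIGENVALUE `±1` from the irreducibility of
`E[p]`.

`exists_prime_no_pm_eigenvalue`: for an elliptic curve `E/ℚ` with integral model `W`, an odd
prime `p` with `E[p]` irreducible and a finite set `B` of primes there is a prime `l ∉ B`,
`l ≠ p`, of good reduction with `a_l(E) ≢ l + 1` and `a_l(E) ≢ -(l + 1) mod p`, i.e. the
Frobenius at `l` has neither the eigenvalue `1` nor the eigenvalue `-1` on `E[p]`.

Proof: Chebotarev + the characteristic equation of Frobenius lifts (`exists_frobenius_data`) +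
the abstract core `false_of_charEq_pm`.
-/
import Mathlib
import Fermat.Agent.S41.NonEis.Main
import Fermat.Agent.S41.NonEis.AbstractPM

set_option autoImplicit false

namespace Fermat.Agent.S41.NonEis

open WeierstrassCurve WeierstrassCurve.Affine WeierstrassCurve.Affine.Point

local notation "Qbar" => AlgebraicClosure ℚ
local notation "Γℚ" => (AlgebraicClosure ℚ ≃ₐ[ℚ] AlgebraicClosure ℚ)

/-- **(I5±) A PRIME WHOSE FROBENIUS HAS NO EIGENVALUE `±1` ON `E[p]`.** -/
theorem exists_prime_no_pm_eigenvalue (E : WeierstrassCurve ℚ) [E.IsElliptic]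
    {W : WeierstrassCurve ℤ} (hW : W.IsIntegralModelOf E) {p : ℕ} (hp : p.Prime) (hp2 : p ≠ 2)
    (hirr : GaloisRepIsIrreducible (K := AlgebraicClosure ℚ) ℚ E p) (B : Finset ℕ) :
    ∃ l, l.Prime ∧ l ∉ B ∧ l ≠ p ∧ W.IsGoodPrimeFor l ∧
      ¬ (p : ℤ) ∣ W.apOfModel l - (l + 1) ∧ ¬ (p : ℤ) ∣ W.apOfModel l + (l + 1) := by
  by_contra hcon
  push Not at hcon
  have : Fact p.Prime := ⟨hp⟩
  have hp0 : 0 < p := hp.pos
  have : NeZero p := ⟨hp.ne_zero⟩
  have : NeZero (p : ℚ) := ⟨by exact_mod_cast hp.ne_zero⟩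
  obtain ⟨ζ, hζ⟩ := HasEnoughRootsOfUnity.exists_primitiveRoot Qbar p
  -- the representation
  let ρ : Γℚ →* Module.End (ZMod p) (Submodule.torsionBy ℤ (E⁄Qbar).Point p) :=
    galoisRepModuleEnd ℚ E.toAffine p
  let χ : Γℚ →* (ZMod p)ˣ := hζ.autToPow ℚ
  have hcardT : Nat.card (Submodule.torsionBy ℤ (E⁄Qbar).Point p) = p ^ 2 :=
    Fermat.Agent.Lib.EC.TorsionCard.card_torsionBy E Qbar (n := p)
      (Nat.cast_ne_zero.mpr hp.ne_zero)
  have hfinT : Finite (Submodule.torsionBy ℤ (E⁄Qbar).Point p) :=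
    Nat.finite_of_card_ne_zero (by rw [hcardT]; exact pow_ne_zero _ hp.ne_zero)
  have hV : Module.finrank (ZMod p) (Submodule.torsionBy ℤ (E⁄Qbar).Point p) = 2 := by
    have h1 := Module.natCard_eq_pow_finrank (K := ZMod p)
      (V := Submodule.torsionBy ℤ (E⁄Qbar).Point p)
    rw [hcardT, Nat.card_zmod] at h1
    exact (Nat.pow_right_injective hp.two_le h1).symm
  have hirr' : IrredRep ρ := fun N hN => hirr.2 N (fun σ x hx => hN σ x hx)
  have hc : ρ complexConjugation * ρ complexConjugation = 1 := by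
    rw [← map_mul, complexConjugation_mul_self, map_one]
  -- the key equation in the endomorphism ring
  have h1 : ∀ g : Γℚ, ∃ a : ZMod p, a ^ 2 = (1 + ((χ g : (ZMod p)ˣ) : ZMod p)) ^ 2 ∧
      ρ g * ρ g - a • ρ g + ((χ g : (ZMod p)ˣ) : ZMod p) •
        (1 : Module.End (ZMod p) (Submodule.torsionBy ℤ (E⁄Qbar).Point p)) = 0 := by
    intro g
    obtain ⟨ℓ, hℓ, hℓB, hℓn, hgood, hgζ, hchar⟩ :=
      exists_frobenius_data E hW hp0 ζ hζ.pow_eq_one B g
    have hℓp : ℓ ≠ p := by
      rintro rfl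
      exact hℓn dvd_rfl
    have hχ : ((χ g : (ZMod p)ˣ) : ZMod p) = ((ℓ : ℕ) : ZMod p) := by
      have h3 : ζ ^ ((χ g : (ZMod p)ˣ) : ZMod p).val = ζ ^ ℓ := by
        rw [hζ.autToPow_spec ℚ g, hgζ]
      have h4 := natCast_eq_of_pow_eq hp0 hζ h3
      rwa [ZMod.natCast_zmod_val] at h4
    refine ⟨((W.apOfModel ℓ : ℤ) : ZMod p), ?_, ?_⟩
    · -- `a_ℓ² = (1 + ℓ)²`
      rw [hχ]
      have hdisj : ((W.apOfModel ℓ : ℤ) : ZMod p) - (((ℓ : ℕ) : ZMod p) + 1) = 0 ∨
          ((W.apOfModel ℓ : ℤ) : ZMod p) + (((ℓ : ℕ) : ZMod p) + 1) = 0 := by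
        by_cases h5 : (p : ℤ) ∣ W.apOfModel ℓ - (ℓ + 1)
        · left
          have := (ZMod.intCast_zmod_eq_zero_iff_dvd _ p).mpr h5
          push_cast at this
          exact this
        · right
          have h6 := hcon ℓ hℓ hℓB hℓp hgood h5
          have := (ZMod.intCast_zmod_eq_zero_iff_dvd _ p).mpr h6
          push_cast at this
          exact this
      rcases hdisj with h | h
      · linear_combination (((W.apOfModel ℓ : ℤ) : ZMod p) + (((ℓ : ℕ) : ZMod p) + 1)) * h
      · linear_combination (((W.apOfModel ℓ : ℤ) : ZMod p) - (((ℓ : ℕ) : ZMod p) + 1)) * h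
    · rw [hχ]
      apply LinearMap.ext
      intro P
      apply Subtype.ext
      have hP : p • (P : (E⁄Qbar).Point) = 0 := by
        have h1 := (Submodule.mem_torsionBy_iff _ _).1 P.2
        rw [natCast_zsmul] at h1
        exact h1
      have h2 := hchar P hP
      simp only [LinearMap.add_apply, LinearMap.sub_apply, LinearMap.smul_apply,
        Module.End.mul_apply, Module.End.one_apply, LinearMap.zero_apply]
      rw [Int.cast_smul_eq_zsmul, Nat.cast_smul_eq_nsmul]
      rw [← natCast_zsmul] at ⊢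
      exact h2
  -- complex conjugation
  have hχc : χ complexConjugation = -1 := by
    have h3 : ζ ^ ((χ complexConjugation : (ZMod p)ˣ) : ZMod p).val = ζ ^ (p - 1) := by
      rw [hζ.autToPow_spec ℚ complexConjugation,
        complexConjugation_rootOfUnity hp.ne_zero hζ.pow_eq_one]
      apply inv_eq_of_mul_eq_one_right
      rw [← pow_succ', Nat.sub_add_cancel hp.one_le, hζ.pow_eq_one]
    have h4 := natCast_eq_of_pow_eq hp0 hζ h3
    rw [ZMod.natCast_zmod_val, Nat.cast_sub hp.one_le, ZMod.natCast_self, Nat.cast_one,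
      zero_sub] at h4
    apply Units.ext
    rw [h4, Units.val_neg, Units.val_one]
  exact false_of_charEq_pm hp2 hV ρ hirr' χ complexConjugation hc hχc h1

end Fermat.Agent.S41.NonEis
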